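import Mathlib

/-!
# GATE-Z / LOC-p, Kummer route: the abstract core

`G` acts on an abelian group `J`.  `z = m • R` is fixed by `τ₀` and `φ`.  The inertia set `I` acts on
`R` and on `J[m]` through powers of the tame generator `τ₀`; `φ τ₀ φ⁻¹` acts on `R` as `τ₀ ^ p`;
`τ₀ - 1` maps `J[m]` into a subgroup `T` on which `τ₀` is trivial and which `φ` preserves; `φ² - 1`
maps `J[m]` into `T`; and `B • T ⊆ (τ₀ - 1) J[m]`.  Then `(B * (p ^ 2 - 1)) • z` is `m` times an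
`I`-fixed element.
-/

namespace Fermat.Agent.GZ.LocP.Kum

variable {G J : Type*} [Group G] [AddCommGroup J] [DistribMulAction G J]

theorem smul_nsmul_swap (g : G) (n : ℕ) (x : J) : g • (n • x) = n • (g • x) :=
  smul_comm g n x

/-- `τ₀ ^ n • R = R + n • (τ₀ • R - R) + t` with `t ∈ T`. -/
theorem pow_smul_eq_add (T : AddSubgroup J) (τ₀ : G) (m : ℕ) (R : J)
    (hx₀ : m • (τ₀ • R - R) = 0)
    (h3a : ∀ x : J, m • x = 0 → τ₀ • x - x ∈ T)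
    (h3b : ∀ t ∈ T, τ₀ • t = t) (n : ℕ) :
    ∃ t ∈ T, τ₀ ^ n • R = R + n • (τ₀ • R - R) + t := by
  induction n with
  | zero => exact ⟨0, T.zero_mem, by simp⟩
  | succ n ih =>
    obtain ⟨t, ht, h⟩ := ih
    refine ⟨n • (τ₀ • (τ₀ • R - R) - (τ₀ • R - R)) + t,
      T.add_mem (T.nsmul_mem (h3a _ hx₀) n) ht, ?_⟩
    rw [pow_succ', mul_smul, h, smul_add, smul_add, h3b t ht, smul_nsmul_swap]
    generalize τ₀ • (τ₀ • R - R) = u
    generalize hv : τ₀ • R = v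
    simp only [nsmul_sub, succ_nsmul]
    abel

/-- The abstract core of the Kummer route to (LOCP*). -/
theorem exists_fixed_of_nd (I : Set G) (T : AddSubgroup J) (τ₀ φ : G) (m p B : ℕ) (hp : 0 < p)
    (z R : J) (hR : m • R = z) (hτz : τ₀ • z = z) (hφz : φ • z = z)
    (h1 : ∀ σ ∈ I, ∃ n : ℕ, σ • R = τ₀ ^ n • R ∧ ∀ x : J, m • x = 0 → σ • x = τ₀ ^ n • x)
    (h2 : (φ * τ₀ * φ⁻¹) • R = τ₀ ^ p • R)
    (h3a : ∀ x : J, m • x = 0 → τ₀ • x - x ∈ T)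
    (h3b : ∀ t ∈ T, τ₀ • t = t)
    (h3c : ∀ t ∈ T, φ • t ∈ T)
    (h4 : ∀ y : J, m • y = 0 → φ • φ • y - y ∈ T)
    (h5 : ∀ t ∈ T, ∃ y : J, m • y = 0 ∧ B • t = τ₀ • y - y) :
    ∃ R' : J, m • R' = (B * (p ^ 2 - 1)) • z ∧ ∀ σ ∈ I, σ • R' = R' := by
  have hx₀ : m • (τ₀ • R - R) = 0 := by
    rw [nsmul_sub, ← smul_nsmul_swap, hR, hτz, sub_self]
  have hφinvz : φ⁻¹ • z = z := by
    conv_lhs => rw [← hφz]
    rw [inv_smul_smul]
  have hs : m • (φ⁻¹ • R - R) = 0 := by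
    rw [nsmul_sub, ← smul_nsmul_swap, hR, hφinvz, sub_self]
  -- the right hand side of the tame relation
  obtain ⟨t₁, ht₁, hpow⟩ := pow_smul_eq_add T τ₀ m R hx₀ h3a h3b p
  -- the left hand side of the tame relation
  have hNs : τ₀ • (φ⁻¹ • R - R) - (φ⁻¹ • R - R) ∈ T := h3a _ hs
  have hφNs : φ • (τ₀ • (φ⁻¹ • R - R) - (φ⁻¹ • R - R)) ∈ T := h3c _ hNs
  -- abbreviations
  obtain ⟨x₀, hx₀def⟩ : ∃ x₀ : J, x₀ = τ₀ • R - R := ⟨_, rfl⟩
  obtain ⟨s, hsdef⟩ : ∃ s : J, s = φ⁻¹ • R - R := ⟨_, rfl⟩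
  obtain ⟨Ns, hNsdef⟩ : ∃ Ns : J, Ns = τ₀ • s - s := ⟨_, rfl⟩
  rw [← hx₀def] at hx₀ hpow
  rw [← hsdef] at hs hNs hφNs
  rw [← hNsdef] at hNs hφNs
  have e1 : φ⁻¹ • R = R + s := by rw [hsdef]; abel
  have e2 : τ₀ • R = R + x₀ := by rw [hx₀def]; abel
  have e4 : τ₀ • s = s + Ns := by rw [hNsdef]; abel
  have e3 : φ • R + φ • s = R := by
    rw [← smul_add, ← e1, smul_inv_smul]
  have hL : (φ * τ₀ * φ⁻¹) • R = R + φ • x₀ + φ • Ns := by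
    rw [mul_smul, mul_smul, e1, smul_add, e2, e4, smul_add, smul_add, smul_add]
    have e5 : φ • R = R - φ • s := eq_sub_of_add_eq e3
    rw [e5]
    abel
  -- `φ x₀ ≡ p x₀` modulo `T`
  have hstar : φ • x₀ - p • x₀ ∈ T := by
    have h := hL.symm.trans (h2.trans hpow)
    have : φ • x₀ - p • x₀ = t₁ - φ • Ns := by
      have h' : φ • x₀ + φ • Ns = p • x₀ + t₁ := by
        rw [add_assoc, add_assoc] at h
        exact add_left_cancel h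
      rw [sub_eq_sub_iff_add_eq_add, h']; abel
    rw [this]
    exact T.sub_mem ht₁ hφNs
  -- `(p² - 1) x₀ ∈ T`
  have hkey : (p ^ 2 - 1) • x₀ ∈ T := by
    have a1 : φ • φ • x₀ - x₀ ∈ T := h4 x₀ hx₀
    have a2 : φ • (φ • x₀ - p • x₀) ∈ T := h3c _ hstar
    have a3 : p • (φ • x₀ - p • x₀) ∈ T := T.nsmul_mem hstar p
    have hsum : (p ^ 2 - 1) • x₀ + x₀ = (p ^ 2) • x₀ := by
      rw [← succ_nsmul]
      congr 1
      have : 1 ≤ p ^ 2 := Nat.one_le_pow _ _ hp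
      omega
    have : (p ^ 2 - 1) • x₀ = (φ • φ • x₀ - x₀) - φ • (φ • x₀ - p • x₀) - p • (φ • x₀ - p • x₀) := by
      have e : (p ^ 2 - 1) • x₀ = (p ^ 2) • x₀ - x₀ := by rw [← hsum]; abel
      rw [e, smul_sub, nsmul_sub, smul_nsmul_swap, pow_two, mul_nsmul]
      abel
    rw [this]
    exact T.sub_mem (T.sub_mem a1 a2) a3
  obtain ⟨y, hy, hBy⟩ := h5 _ hkey
  refine ⟨(B * (p ^ 2 - 1)) • R - y, ?_, ?_⟩
  · rw [nsmul_sub, hy, sub_zero, nsmul_left_comm, hR]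
  · have hτ : τ₀ • ((B * (p ^ 2 - 1)) • R - y) = (B * (p ^ 2 - 1)) • R - y := by
      rw [smul_sub, smul_nsmul_swap, e2, nsmul_add, mul_comm B, mul_nsmul x₀, hBy]
      abel
    have hpowfix : ∀ n : ℕ, τ₀ ^ n • ((B * (p ^ 2 - 1)) • R - y) = (B * (p ^ 2 - 1)) • R - y := by
      intro n
      induction n with
      | zero => simp
      | succ n ih => rw [pow_succ, mul_smul, hτ, ih]
    intro σ hσ
    obtain ⟨n, hn1, hn2⟩ := h1 σ hσ
    rw [smul_sub, smul_nsmul_swap, hn1, hn2 y hy, ← smul_nsmul_swap, ← smul_sub, hpowfix n]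

end Fermat.Agent.GZ.LocP.Kum
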